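/-
GATE-J27 (S27) / node B5 = GJ27-LSH (helper64): **assembly of the specialisation side.**

`specData_of_chart` : from
* (B0)  a generator `x₀` of `F / K` and `genusFF K F = gLat K t`,
* (B2)  a residue field `k` (algebraically closed, characteristic `p ≠ ℓ`),
* (B3)  a reduction datum `R : RedData K F k Ft` with `hunram`, a Gauss chart `t`
        (`t ∈ Rw`, `red t` transcendental), separability of the special fibre over `k(t~)`,
        degree preservation `[F : K(t)] ≤ [Ft : k(t~)]`, and a Frobenius structure on `Ft / k`,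
* (B4)  branch data `PlaceBranch K t G0` for a monic `G0 ∈ A[X]` with squarefree reduction,
we get `SpecData K F ℓ` of `GJ27/Vocab.lean`:

  (m2) `RedData.gLat_le_of_placeBranch` ⟹ `gLat K t ≤ gLat k t~`
  (m1) `lSpaceHyp_of_chart`             ⟹ `∃ c, LSpaceHyp R (gLat K t) c`
  + the Place API on `Ft / k` from `IsGen k t~` (`GJ/FF`).

`ChartPkg K F ℓ` bundles exactly these binders (the CONTRACT for B1–B4), and
`specStmt_of_chartPkg : (∀ …, Nonempty (ChartPkg K F ℓ)) → SpecStmt`.
-/
import Mathlib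
import Fermat.Agent.GJ27.Vocab
import Fermat.Agent.GJ.S37.LSpaceHypPrimitive
import Fermat.Agent.GJ.J1.GenusBranch

set_option autoImplicit false
set_option linter.unusedSectionVars false

noncomputable section

open AlgebraicCurve IntermediateField Module Polynomial

namespace Fermat.Agent.GJ27.LSH

open Fermat.Agent.S24 Fermat.Agent.RRh45 Fermat.Agent.GJ.J1 Fermat.Agent.GJ.J1.AbsCore
  Fermat.Agent.GJ.J1.G1 Fermat.Agent.GJ.S37LSpace Fermat.Agent.GJ.S37LSpaceInst
  Fermat.Agent.GJ.J1.DiffAdapter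

universe u v

section Core

variable {K : Type u} {F : Type v} {k Ft : Type u} [Field K] [Field F] [Algebra K F]
  [Field k] [Field Ft] [Algebra k Ft] [IsAlgClosed K] [CharZero K] [IsAlgClosed k]

/-- **(m1) + (m2)**: `LSpaceHyp` from a Gauss chart with degree preservation and Place-form
branch data (no Place-API instance assumed; no rank-one hypothesis). -/
theorem lSpaceHyp_of_placeBranch (x₀ : F) [IsGen K x₀] (R : RedData K F k Ft)
    (hunram : ∀ x : F, x ≠ 0 → ∃ c : K, c ≠ 0 ∧
      x / algebraMap K F c ∈ R.Rw ∧ (x / algebraMap K F c)⁻¹ ∈ R.Rw)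
    {t : F} (ht : t ∈ R.Rw) (htr : Transcendental k (R.red ⟨t, ht⟩))
    (hsepk : Algebra.IsSeparable k⟮R.red ⟨t, ht⟩⟯ Ft)
    (hdeg : finrank K⟮t⟯ F ≤ finrank k⟮R.red ⟨t, ht⟩⟯ Ft)
    (G0 : Polynomial R.A) (hmonic : G0.Monic) (hsq : Squarefree (G0.map R.res))
    (hbr : PlaceBranch K t (G0.map R.A.subtype)) :
    ∃ c : ℤ, LSpaceHyp R (gLat K t : ℤ) c := by
  have hgc : R.IsGaussChart t := ⟨ht, htr⟩
  have htK : Transcendental K t := IntRed.transcendental_of_isGaussChart hgc
  have hti : t⁻¹ ∈ R.Rw := (Select.isGaussChart_inv hgc).fst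
  have hfdK : FiniteDimensional K⟮t⟯ F := (IsGen.of_transcendental x₀ htK).finite
  obtain ⟨hfdk, -⟩ := Fermat.Agent.GJ.S37.ResDeg.RedData.finrank_red_le R ht htr
  have hsepK : Algebra.IsSeparable K⟮t⟯ F := isSeparable_adjoin_of_charZero t
  have hR : ResData R.A R.Rw R.res R.red := ResData.ofRedData R hunram
  have horth : Orth R.A R.Rw := R.orth_of_finrank_le t ht htr hdeg
  have hG : R.RedRegFin t := R.redRegFin_of_finrank_le t ht htr hdeg
  have hGi : R.RedRegFin t⁻¹ := R.redRegFin_inv_of_finrank_le t ht hti htr hdeg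
  have hgle : gLat K t ≤ gLat k (R.red ⟨t, ht⟩) :=
    R.gLat_le_of_placeBranch hR horth ht hti htK htr hG hGi G0 hmonic hsq hbr
  have hgenk : IsGen k (R.red ⟨t, ht⟩) := ⟨htr, hfdk⟩
  have i1 : FiniteResidues K F := Fermat.Agent.GJ.FF.finiteResidues (K := K) x₀
  have i2 : HasPrincipalDivisors K F :=
    Fermat.Agent.GJ.FF.PrincipalOf.hasPrincipalDivisors_gen (K := K) x₀
  have i3 : Nonempty (Place K F) := Fermat.Agent.GJ.FF.nonempty_place (K := K) x₀
  have i4 : FiniteResidues k Ft := Fermat.Agent.GJ.FF.finiteResidues (K := k) (R.red ⟨t, ht⟩)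
  have i5 : HasPrincipalDivisors k Ft :=
    Fermat.Agent.GJ.FF.PrincipalOf.hasPrincipalDivisors_gen (K := k) (R.red ⟨t, ht⟩)
  have i6 : Nonempty (Place k Ft) := Fermat.Agent.GJ.FF.nonempty_place (K := k) (R.red ⟨t, ht⟩)
  exact lSpaceHyp_of_chart R ht hti htr hdeg hgle

end Core

/-- **The contract for B1–B4** (everything the assembly B5 needs, as one bundle). -/
structure ChartPkg (K : Type u) (F : Type v) [Field K] [Field F] [Algebra K F] (ℓ : ℕ) where
  /-- (B2) the residue characteristic -/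
  p : ℕ
  hp : p.Prime
  hpℓ : p ≠ ℓ
  /-- (B2) the residue field of the place of `K` -/
  k : Type u
  /-- (B3) the function field of the special fibre -/
  Ft : Type u
  instFieldk : Field k
  instFieldFt : Field Ft
  instAlgebra : Algebra k Ft
  instIsAlgClosed : IsAlgClosed k
  instCharP : CharP k p
  /-- (B3) the reduction datum -/
  R : RedData K F k Ft
  hunram : ∀ x : F, x ≠ 0 → ∃ c : K, c ≠ 0 ∧
    x / algebraMap K F c ∈ R.Rw ∧ (x / algebraMap K F c)⁻¹ ∈ R.Rw
  /-- (B1/B3) the Gauss chart -/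
  t : F
  ht : t ∈ R.Rw
  htr : Transcendental k (R.red ⟨t, ht⟩)
  hsepk : Algebra.IsSeparable k⟮R.red ⟨t, ht⟩⟯ Ft
  hdeg : finrank K⟮t⟯ F ≤ finrank k⟮R.red ⟨t, ht⟩⟯ Ft
  /-- (B4) the branch polynomial -/
  G0 : Polynomial R.A
  hmonic : G0.Monic
  hsq : Squarefree (G0.map R.res)
  hbr : PlaceBranch K t (G0.map R.A.subtype)
  /-- (B3) the Frobenius of the special fibre -/
  Φ : FrobStr p k Ft

attribute [instance] ChartPkg.instFieldk ChartPkg.instFieldFt ChartPkg.instAlgebra
  ChartPkg.instIsAlgClosed ChartPkg.instCharP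

section Assembly

variable {K : Type u} {F : Type v} [Field K] [Field F] [Algebra K F] [IsAlgClosed K] [CharZero K]

/-- **B5.** `SpecData` from the chart package, a generator of `F / K` and `genusFF = gLat`. -/
theorem specData_of_chartPkg {ℓ : ℕ} (x₀ : F) [IsGen K x₀] (C : ChartPkg K F ℓ)
    (hg : genusFF K F = gLat K C.t) : Nonempty (SpecData K F ℓ) := by
  obtain ⟨c, H⟩ := lSpaceHyp_of_placeBranch x₀ C.R C.hunram C.ht C.htr C.hsepk C.hdeg C.G0
    C.hmonic C.hsq C.hbr
  have htK : Transcendental K C.t :=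
    IntRed.transcendental_of_isGaussChart (R := C.R) ⟨C.ht, C.htr⟩
  have hfdK : FiniteDimensional K⟮C.t⟯ F := (IsGen.of_transcendental x₀ htK).finite
  obtain ⟨hfdk, -⟩ := Fermat.Agent.GJ.S37.ResDeg.RedData.finrank_red_le C.R C.ht C.htr
  have hgenk : IsGen C.k (C.R.red ⟨C.t, C.ht⟩) := ⟨C.htr, hfdk⟩
  rw [← hg] at H
  exact ⟨{ p := C.p
           hp := C.hp
           hpℓ := C.hpℓ
           k := C.k
           Ft := C.Ft
           instFieldk := C.instFieldk
           instFieldFt := C.instFieldFt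
           instAlgebra := C.instAlgebra
           instIsAlgClosed := C.instIsAlgClosed
           instCharP := C.instCharP
           instFiniteResidues := Fermat.Agent.GJ.FF.finiteResidues (K := C.k) (C.R.red ⟨C.t, C.ht⟩)
           instHasPrincipalDivisors :=
             Fermat.Agent.GJ.FF.PrincipalOf.hasPrincipalDivisors_gen (K := C.k) (C.R.red ⟨C.t, C.ht⟩)
           instNonemptyPlace := Fermat.Agent.GJ.FF.nonempty_place (K := C.k) (C.R.red ⟨C.t, C.ht⟩)
           nonemptyPlaceGeneric := Fermat.Agent.GJ.FF.nonempty_place (K := K) x₀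
           R := C.R
           c := c
           H := H
           x₀ := C.R.red ⟨C.t, C.ht⟩
           gen := hgenk
           Φ := C.Φ }⟩

end Assembly

/-- **(B0) FRONT**, as consumed here: a generator and `genusFF = gLat` at every transcendental. -/
def FrontStmt : Prop :=
  ∀ (K : Type u) (F : Type v) [Field K] [Field F] [Algebra K F] [IsAlgClosed K] [CharZero K]
    [IsCurveOver K F] [Algebra.EssFiniteType K F],
    ∃ x₀ : F, IsGen K x₀ ∧ ∀ t : F, Transcendental K t → genusFF K F = gLat K t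

/-- **(B1)–(B4)**, as consumed here: a chart package exists for every `ℓ`. -/
def ChartStmt : Prop :=
  ∀ (K : Type u) (F : Type v) [Field K] [Field F] [Algebra K F] [IsAlgClosed K] [CharZero K]
    [IsCurveOver K F] [Algebra.EssFiniteType K F] (ℓ : ℕ) [Fact ℓ.Prime],
    Nonempty (ChartPkg K F ℓ)

/-- **SPEC from FRONT and CHART.** -/
theorem specStmt_of_chartStmt (hF : FrontStmt.{u, v}) (hC : ChartStmt.{u, v}) :
    SpecStmt.{u, v} := by
  intro K F _ _ _ _ _ _ _ ℓ _
  obtain ⟨x₀, hx₀, hg⟩ := hF K F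
  obtain ⟨C⟩ := hC K F ℓ
  have htK : Transcendental K C.t :=
    IntRed.transcendental_of_isGaussChart (R := C.R) ⟨C.ht, C.htr⟩
  exact specData_of_chartPkg x₀ C (hg C.t htK)

end Fermat.Agent.GJ27.LSH
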