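/-
GATE-J27 (S27) / node B5 = GJ27-LSH (helper64), part 2: **the chart package of a plane model**.

`chartPkgOfModel` : a `PlaneModel K F k` (B3, `GJ27/Red/Model`) over an algebraically closed
residue field of characteristic `p ≠ ℓ`, with
* degree preservation `[F : K(t)] ≤ n`,
* a reduced Bezout certificate `U·P~ + V·∂_Y P~ = δ(X) ≠ 0` (B1 reduced),
* a monic `G ∈ A[X]` with squarefree reduction and `PlaceBranch K t G` (B4),
* local finiteness of `k` and `q`-Frobenius-fixed coefficients of `P~` (B2),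
fills `ChartPkg K F ℓ` of `GJ27/LSH/SpecOfChart.lean`.
-/
import Mathlib
import Fermat.Agent.GJ27.LSH.SpecOfChart
import Fermat.Agent.GJ27.Red.OfEis
import Fermat.Agent.GJ27.Red.ModelFt
import Fermat.Agent.GJ27.Red.Frob

set_option autoImplicit false
set_option linter.unusedSectionVars false

noncomputable section

open AlgebraicCurve IntermediateField Module Polynomial

namespace Fermat.Agent.GJ27.LSH

open Fermat.Agent.S24 Fermat.Agent.GJ.J1 Fermat.Agent.GJ.J1.DiffAdapter Fermat.Agent.GJ27.Red

universe u v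

section Model

variable {K : Type u} {F : Type v} [Field K] [Field F] [Algebra K F] {k : Type u} [Field k]

theorem PlaneModel_natDegree_Pt_pos (M : PlaneModel K F k) : 0 < M.Pt.natDegree := by
  rw [M.natDegree_Pt]
  exact M.natDegree_pos

theorem PlaneModel_red_t_eq_xbar (M : PlaneModel K F k) :
    M.redData.red ⟨M.t, M.t_mem⟩ = ModelFt.xbar M.Pt M.Ft := M.red_t

/-- **the chart package of a plane model.** -/
def chartPkgOfModel [IsAlgClosed k] (M : PlaneModel K F k) (ℓ p : ℕ) (hp : p.Prime)
    (hpℓ : p ≠ ℓ) [CharP k p]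
    (hdeg : finrank K⟮M.t⟯ F ≤ M.n)
    {U V : Polynomial (Polynomial k)} {δ : Polynomial k} (hδ : δ ≠ 0)
    (hbez : U * M.Pt + V * derivative M.Pt = C δ)
    (G : Polynomial M.A) (hG : G.Monic) (hsq : Squarefree (G.map M.res))
    (hbr : PlaceBranch K M.t (G.map M.A.subtype))
    (f : ℕ) (hf : 0 < f) (hk : ∀ a : k, ∃ n : ℕ, 0 < n ∧ a ^ (p ^ n) = a)
    (hfix : ∀ j i : ℕ, ((M.Pt.coeff j).coeff i) ^ (p ^ f) = (M.Pt.coeff j).coeff i) :
    ChartPkg K F ℓ :=
  haveI : Fact p.Prime := ⟨hp⟩
  { p := p
    hp := hp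
    hpℓ := hpℓ
    k := k
    Ft := M.Ft
    instFieldk := inferInstance
    instFieldFt := inferInstance
    instAlgebra := inferInstance
    instIsAlgClosed := inferInstance
    instCharP := inferInstance
    R := M.redData
    hunram := M.hunram
    t := M.t
    ht := M.t_mem
    htr := M.transcendental_red_t
    hsepk := ModelFt.isSeparable_of_eq M.Ft M.Pt_monic (PlaneModel_natDegree_Pt_pos M) hδ hbez
      (PlaneModel_red_t_eq_xbar M)
    hdeg := by
      rw [ModelFt.finrank_of_eq M.Ft M.Pt_monic (PlaneModel_natDegree_Pt_pos M)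
        (PlaneModel_red_t_eq_xbar M), M.natDegree_Pt]
      exact hdeg
    G0 := G
    hmonic := hG
    hsq := hsq
    hbr := hbr
    Φ := Frob.frobStrAdjoinRoot (Ft := M.Ft) (iterateFrobenius k p f) M.Pt
      (Frob.map_mapRingHom_eq_self_of_coeff _ _ (fun j i => by
        rw [iterateFrobenius_def]; exact hfix j i)) hf hk
      (fun a => iterateFrobenius_def p f a) }

end Model

end Fermat.Agent.GJ27.LSH
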