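/-
GATE-J27 (S27) / node B5 = GJ27-LSH (helper64), part 3: **`chartStmt : ChartStmt`**.

B0 (`GJ27/Front/Main`: generator + place) ⟹ B1 (`GJ27/Eis/Main.exists_eisenstein_presentation`)
⟹ B4 (`GJ27/Branch/OfEis.exists_branch_data_of_eis`) ⟹ B2 (`GJ27/Chev/Place.exists_place_units`, with
`S ⊇` all coefficients of `P, U, V, δ` and the B4 set, units `= {X-coefficient of a_0, lc δ}`)
⟹ B3 (`GJ27/Red/OfEis.planeModelOfEis'`) ⟹ `chartPkgOfModel` (`GJ27/LSH/ChartInst`).
-/
import Mathlib
import Fermat.Agent.GJ27.LSH.ChartInst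
import Fermat.Agent.GJ27.Front.Main
import Fermat.Agent.GJ27.Eis.Main
import Fermat.Agent.GJ27.Chev.Place
import Fermat.Agent.GJ27.Branch.OfEis

set_option autoImplicit false
set_option linter.unusedSectionVars false

noncomputable section

open AlgebraicCurve IntermediateField Module Polynomial

namespace Fermat.Agent.GJ27.LSH

open Fermat.Agent.S24 Fermat.Agent.GJ.J1 Fermat.Agent.GJ.J1.DiffAdapter Fermat.Agent.GJ27.Red

universe u v

section Coeffs

variable {K : Type u} [Field K]

/-- all the coefficients of a two-variable polynomial. -/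
def coeffs2 (Q : Polynomial (Polynomial K)) : Finset K := by
  classical
  exact Q.support.biUnion fun j => (Q.coeff j).coeffs

theorem coeff_coeff_mem_coeffs2 (Q : Polynomial (Polynomial K)) (j i : ℕ)
    (h : (Q.coeff j).coeff i ≠ 0) : (Q.coeff j).coeff i ∈ coeffs2 Q := by
  classical
  rw [coeffs2, Finset.mem_biUnion]
  refine ⟨j, ?_, Polynomial.coeff_mem_coeffs h⟩
  rw [Polynomial.mem_support_iff]
  intro h0
  rw [h0] at h
  simp at h

/-- membership of all coefficients in a subring containing `coeffs2 Q`. -/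
theorem coeff_coeff_mem_of_coeffs2 {A : ValuationSubring K} (Q : Polynomial (Polynomial K))
    (hS : ∀ s ∈ coeffs2 Q, s ∈ A) (j i : ℕ) : (Q.coeff j).coeff i ∈ A := by
  by_cases h : (Q.coeff j).coeff i = 0
  · rw [h]; exact A.zero_mem
  · exact hS _ (coeff_coeff_mem_coeffs2 Q j i h)

theorem coeff_coeff_mem_closure {T : Set K} (Q : Polynomial (Polynomial K))
    (hS : ∀ s ∈ coeffs2 Q, s ∈ T) (j i : ℕ) : (Q.coeff j).coeff i ∈ Subring.closure T := by
  by_cases h : (Q.coeff j).coeff i = 0
  · rw [h]; exact Subring.zero_mem _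
  · exact Subring.subset_closure (hS _ (coeff_coeff_mem_coeffs2 Q j i h))

/-- `X ∣ a`, `¬ X² ∣ a` ⟹ the `X`-coefficient of `a` is nonzero. -/
theorem coeff_one_ne_zero_of_dvd {a : Polynomial K} (h1 : X ∣ a) (h2 : ¬ X ^ 2 ∣ a) :
    a.coeff 1 ≠ 0 := by
  intro h0
  apply h2
  rw [Polynomial.X_pow_dvd_iff]
  intro d hd
  interval_cases d
  · exact Polynomial.X_dvd_iff.1 h1
  · exact h0

end Coeffs

section Bezout

variable {K : Type u} [Field K] (A : ValuationSubring K) {k : Type*} [Field k] (res : A →+* k)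

theorem incl2_derivative (G : Polynomial (Polynomial A)) :
    incl2 A (derivative G) = derivative (incl2 A G) := by
  simp only [incl2, Polynomial.coe_mapRingHom]
  exact (Polynomial.derivative_map G _).symm

theorem red2_derivative (G : Polynomial (Polynomial A)) :
    red2 A res (derivative G) = derivative (red2 A res G) := by
  simp only [red2, Polynomial.coe_mapRingHom]
  exact (Polynomial.derivative_map G _).symm

/-- **the reduced Bezout certificate.** -/
theorem exists_reduced_bezout {P U V : Polynomial (Polynomial K)} {δ : Polynomial K}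
    (hδ : δ ≠ 0) (hbez : U * P + V * derivative P = C δ)
    (hP : ∀ j i, (P.coeff j).coeff i ∈ A) (hU : ∀ j i, (U.coeff j).coeff i ∈ A)
    (hV : ∀ j i, (V.coeff j).coeff i ∈ A) (hδA : ∀ i, δ.coeff i ∈ A)
    (hlc : ∀ h : δ.leadingCoeff ∈ A, res ⟨δ.leadingCoeff, h⟩ ≠ 0) :
    ∃ (U' V' : Polynomial (Polynomial k)) (δ' : Polynomial k), δ' ≠ 0 ∧
      U' * red2 A res (liftP A P hP) + V' * derivative (red2 A res (liftP A P hP)) = C δ' := by
  have hCδ : ∀ j i, ((C δ : Polynomial (Polynomial K)).coeff j).coeff i ∈ A := by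
    intro j i
    rw [Polynomial.coeff_C]
    split_ifs
    · exact hδA i
    · rw [Polynomial.coeff_zero]; exact A.zero_mem
  set PA := liftP A P hP with hPA
  set UA := liftP A U hU with hUA
  set VA := liftP A V hV with hVA
  set DA := liftP A (C δ) hCδ with hDA
  have hrel : UA * PA + VA * derivative PA = DA := by
    apply incl2_injective A
    rw [map_add, map_mul, map_mul, incl2_derivative, hPA, hUA, hVA, hDA, incl2_liftP, incl2_liftP,
      incl2_liftP, incl2_liftP]
    exact hbez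
  have hred := congrArg (red2 A res) hrel
  rw [map_add, map_mul, map_mul, red2_derivative] at hred
  have hDC : red2 A res DA = C ((red2 A res DA).coeff 0) := by
    ext j i
    rw [Polynomial.coeff_C]
    split_ifs with hj
    · rw [hj]
    · rw [red2_coeff_coeff, Polynomial.coeff_zero]
      have : ((DA.coeff j).coeff i : A) = 0 := by
        apply Subtype.ext
        rw [hDA, coeff_liftP, Polynomial.coeff_C, if_neg hj, Polynomial.coeff_zero]
        rfl
      rw [this, map_zero]
  refine ⟨red2 A res UA, red2 A res VA, (red2 A res DA).coeff 0, ?_, ?_⟩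
  · intro h0
    have h1 : ((red2 A res DA).coeff 0).coeff δ.natDegree = 0 := by rw [h0]; simp
    rw [red2_coeff_coeff] at h1
    have hmem : δ.leadingCoeff ∈ A := hδA _
    have h2 : ((DA.coeff 0).coeff δ.natDegree : A) = ⟨δ.leadingCoeff, hmem⟩ := by
      apply Subtype.ext
      rw [hDA, coeff_liftP, Polynomial.coeff_C_zero]
      rfl
    rw [h2] at h1
    exact hlc hmem h1
  · rw [← hDC]
    exact hred

end Bezout

section Final

/-- **CHART** (B1–B4 assembled): a chart package exists for every curve and every `ℓ`. -/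
theorem chartStmt : ChartStmt.{u, v} := by
  intro K F _ _ _ _ _ _ _ ℓ hℓF
  classical
  -- B0
  obtain ⟨x₀, hx₀⟩ := Front.exists_isGen K F
  haveI := hx₀
  obtain ⟨P0⟩ := Front.nonempty_place K F
  -- B1
  obtain ⟨t, y, n, P, hn, hgen, -, -, -, -, hfin, htop, hPm, hPn, hroot, hdvd, hsq2, -, -,
    U, V, δ, hδ, hbez⟩ := Eis.exists_eisenstein_presentation x₀ P0
  haveI := hgen
  -- B4
  obtain ⟨G0, S4, -, hbr, hS4⟩ :=
    Branch.exists_branch_data_of_eis.{u, u} x₀ hPm hroot htop hδ hbez
  -- the two units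
  have hu0 : (P.coeff 0).coeff 1 ≠ 0 := coeff_one_ne_zero_of_dvd (hdvd 0 hn) hsq2
  have hd0 : δ.leadingCoeff ≠ 0 := Polynomial.leadingCoeff_ne_zero.mpr hδ
  have hℓK : ((ℓ : ℕ) : K) ≠ 0 := Nat.cast_ne_zero.mpr hℓF.out.ne_zero
  -- B2
  obtain ⟨A, p, f, hp, hpℓ, hf, hS, hUn, hcp, hac, hk, hfixA⟩ :=
    Chev.exists_place_units (S4 ∪ coeffs2 P ∪ coeffs2 U ∪ coeffs2 V ∪ δ.coeffs)
      {(P.coeff 0).coeff 1, δ.leadingCoeff} ℓ hℓK
  have hS4A : ∀ s ∈ S4, s ∈ A := fun s hs => hS s (by simp [hs])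
  have hPA : ∀ j i, (P.coeff j).coeff i ∈ A :=
    coeff_coeff_mem_of_coeffs2 P fun s hs => hS s (by simp [hs])
  have hUA : ∀ j i, (U.coeff j).coeff i ∈ A :=
    coeff_coeff_mem_of_coeffs2 U fun s hs => hS s (by simp [hs])
  have hVA : ∀ j i, (V.coeff j).coeff i ∈ A :=
    coeff_coeff_mem_of_coeffs2 V fun s hs => hS s (by simp [hs])
  have hδA : ∀ i, δ.coeff i ∈ A := by
    intro i
    by_cases h : δ.coeff i = 0
    · rw [h]; exact A.zero_mem
    · exact hS _ (by simp [Polynomial.coeff_mem_coeffs h])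
  obtain ⟨hu0A, hu0A'⟩ := hUn ((P.coeff 0).coeff 1) (by simp)
  obtain ⟨hd0A, hd0A'⟩ := hUn δ.leadingCoeff (by simp)
  haveI := hcp
  haveI := hac
  -- B3
  have hu : IsLocalRing.residue A (((liftP A P hPA).coeff 0).coeff 1) ≠ 0 := by
    have h1 : ((liftP A P hPA).coeff 0).coeff 1 = ⟨(P.coeff 0).coeff 1, hu0A⟩ :=
      Subtype.ext (coeff_liftP A P hPA 0 1)
    rw [h1]
    exact Chev.residue_ne_zero_of_inv_mem A hu0A hu0A' hu0
  let M : PlaneModel K F (IsLocalRing.ResidueField A) :=
    planeModelOfEis' A (IsLocalRing.residue A) IsLocalRing.residue_surjective t y n hn P hfin htop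
      hPm hPn hroot hPA hdvd hu
  have hMn : M.n = n := planeModelOfEis_n A (IsLocalRing.residue A) IsLocalRing.residue_surjective
    t y n hn P hfin htop hPm hPn hroot hPA _
  -- reduced Bezout
  obtain ⟨U', V', δ', hδ', hbez'⟩ := exists_reduced_bezout A (IsLocalRing.residue A) hδ hbez hPA
    hUA hVA hδA (fun h => Chev.residue_ne_zero_of_inv_mem A h hd0A' hd0)
  -- branch polynomial
  obtain ⟨G, hGm, hGmap, hGsq⟩ := hS4 A hS4A
  -- Frobenius-fixed coefficients
  have hfix : ∀ j i : ℕ, ((M.Pt.coeff j).coeff i) ^ (p ^ f) = (M.Pt.coeff j).coeff i := by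
    intro j i
    have h1 : (M.Pt.coeff j).coeff i = IsLocalRing.residue A ⟨(P.coeff j).coeff i, hPA j i⟩ := by
      show ((red2 A (IsLocalRing.residue A) (liftP A P hPA)).coeff j).coeff i = _
      rw [red2_coeff_coeff]
      congr 1
      exact Subtype.ext (coeff_liftP A P hPA j i)
    rw [h1]
    refine hfixA _ (hPA j i) (coeff_coeff_mem_closure P (fun s hs => ?_) j i)
    left; left
    simp [hs]
  exact ⟨chartPkgOfModel M ℓ p hp hpℓ (le_of_eq (hfin.trans hMn.symm)) hδ' hbez' G hGm
    (hGsq (IsLocalRing.residue A))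
    (show PlaceBranch K t (Polynomial.map A.subtype G) by rw [hGmap]; exact hbr) f hf hk hfix⟩

end Final

end Fermat.Agent.GJ27.LSH
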