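/-
GATE-J27 (S27) / node B5 = GJ27-LSH (helper64), part 4: **SPEC is a theorem**, and the B-side
plug of the TOP assembly: `S27` from `CountStmt` alone.
-/
import Mathlib
import Fermat.Agent.GJ27.LSH.ChartStmt
import Fermat.Agent.GJ27.FrontFinal
import Fermat.Agent.GJ27.TorsIsoFinal
import Fermat.Agent.GJ27.Top

set_option autoImplicit false

open AlgebraicCurve

namespace Fermat.Agent.GJ27.LSH

universe u v

/-- **SPEC** (nodes B0–B5), unconditionally: the first binder of `s27_of_binders`. -/
theorem specStmt : SpecStmt.{u, v} := specStmt_of_chartStmt frontStmt chartStmt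

/-- **S27 from COUNT alone** (SPEC and TORSISO are theorems). -/
theorem s27_of_countStmt (hC : CountStmt.{u})
    (K : Type u) (F : Type v) [Field K] [Field F] [Algebra K F] [IsAlgClosed K] [CharZero K]
    [IsCurveOver K F] [Algebra.EssFiniteType K F]
    (ℓ : ℕ) [Fact ℓ.Prime] (n : ℕ) :
    Nat.card (Pic0.torsion K F (ℓ ^ n)) = ℓ ^ (2 * genusFF K F * n) :=
  s27_of_binders specStmt torsIsoStmt hC K F ℓ n

end Fermat.Agent.GJ27.LSH
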